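import Fermat.Agent.H82.ORD.ValDisc
import Fermat.Agent.H41.ORD.DvrAbs
import Fermat.Agent.H84.ORD.NodalSpecFinal
import Fermat.Agent.H92.ORD.NodalAsm

/-!
# P-ORD, block B1, row 1158 [DVR] : the place over a centre from VAL (helper82)

Generic component `(V, red)` of helper84 (`Fermat.Agent.H84.ORD.CompSoft`), `P` a place of
`F = FLb N`, `B̄ = nmChart N A (nmY A P)`, `O := red (B̄_𝔪) = {z | GenLocal A V red P z}`.

* `genDvr_of_val` : if the centre of `P` lies on the component, `O` is a valuation ring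
  (`∀ z, z ∈ O ∨ z⁻¹ ∈ O`) and the function field `Fk / k` satisfies Riemann's hypotheses, then
  `O` is the valuation ring of a place `Q` of `Fk / k` over the centre of `P`
  (discreteness = `valDisc`; NO uniformiser, NO factorisation is needed).
* `nda_exists_centre` : the centre contains an element with non-zero reduction (`y - y(P)`), if
  the reduction of `j` is not a constant.
* `nmDvrOo_of_val` : `NmSoftStatement M p → (VAL at the centres on C_∞) → NmDvrOoStatement M p`;
  `nmDvrZero_of_val` : the twin for `C_0`.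
-/

set_option autoImplicit false
set_option linter.unusedSectionVars false
set_option linter.style.haveILetI false
set_option linter.unusedVariables false

noncomputable section

open AlgebraicCurve ModularCurve

namespace Fermat.Agent.H82.ORD

open Fermat.Agent.H72.FF Fermat.Agent.H18.ORD Fermat.Agent.H84.ORD Fermat.Agent.H66
  Fermat.Agent.H27.ESD Fermat.Agent.H41.ORD

section Gen

variable {N : ℕ} [NeZero N] {A : ValuationSubring Qb} {Fk : Type} [Field Fk]
  [Algebra (kRes A) Fk] {V : Subring (FLb N)} {red : V →+* Fk}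

/-- the centre of `P` contains an element with non-zero reduction, if `red j` is not constant -/
theorem nda_exists_centre (H : CompSoft A V red) (P : Place Qb (FLb N))
    (hj : ∀ κ : kRes A, red ⟨nmJ N, H.j_mem⟩ ≠ algebraMap (kRes A) Fk κ) :
    ∃ f ∈ nmCentre A P, ∃ hf : f ∈ V, red ⟨f, hf⟩ ≠ 0 := by
  classical
  have hyB : nmY A P ∈ nmChart N A (nmY A P) := self_mem_nmChart A _
  have hyV : nmY A P ∈ V := H.chart_le P hyB
  obtain ⟨c, hcA, hcv, hcen⟩ := nmChart_decomp P (H.deg P) hyB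
  have hsubV : nmY A P - algebraMap Qb (FLb N) c ∈ V := V.sub_mem hyV (H.const_mem c hcA)
  refine ⟨_, hcen, hsubV, ?_⟩
  intro h0
  have e : (⟨nmY A P - algebraMap Qb (FLb N) c, hsubV⟩ : V) =
      ⟨nmY A P, hyV⟩ - ⟨algebraMap Qb (FLb N) c, H.const_mem c hcA⟩ := rfl
  rw [e, map_sub, H.red_const' hcA, sub_eq_zero] at h0
  by_cases hJ : nmJ N ∈ nmInt A P
  · have hy : nmY A P = nmJ N := by
      unfold nmY
      rw [if_pos hJ]
    apply hj (IsLocalRing.residue A ⟨c, hcA⟩)
    rw [← h0]
    congr 1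
    exact Subtype.ext hy.symm
  · have hy : nmY A P = (nmJ N)⁻¹ := by
      unfold nmY
      rw [if_neg hJ]
    have hj0 : nmJ N ≠ 0 := by
      intro h
      apply hJ
      rw [h]
      exact ⟨0, A.zero_mem, by
        have := nm_hasValue_const P (N := N) 0
        rwa [map_zero] at this⟩
    have e1 : red ⟨nmJ N, H.j_mem⟩ * red ⟨(nmJ N)⁻¹, H.jinv_mem⟩ = 1 := by
      rw [← map_mul, ← map_one red]
      congr 1
      apply Subtype.ext
      show nmJ N * (nmJ N)⁻¹ = 1
      exact mul_inv_cancel₀ hj0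
    have e2 : red ⟨(nmJ N)⁻¹, H.jinv_mem⟩ =
        algebraMap (kRes A) Fk (IsLocalRing.residue A ⟨c, hcA⟩) := by
      rw [← h0]
      congr 1
      exact Subtype.ext hy.symm
    rw [e2] at e1
    apply hj (IsLocalRing.residue A ⟨c, hcA⟩)⁻¹
    rw [map_inv₀]
    exact eq_inv_of_mul_eq_one_left e1

/-- **[DVR] from VAL** (generic component) : a valuation ring `red (B̄_𝔪)` of a function field
satisfying Riemann's hypotheses is the valuation ring of a place over the centre. -/
theorem genDvr_of_val (H : CompSoft A V red) [IsAlgClosed (kRes A)]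
    (hrr : Fermat.Agent.H58.RRHyp (kRes A) Fk) (P : Place Qb (FLb N))
    (hideal : ∀ f ∈ nmChart N A (nmY A P), ∀ h : f ∈ V, red ⟨f, h⟩ = 0 → f ∈ nmMax A P)
    (hval : ∀ z : Fk, GenLocal A V red P z ∨ GenLocal A V red P z⁻¹)
    (hne : ∃ f ∈ nmCentre A P, ∃ hf : f ∈ V, red ⟨f, hf⟩ ≠ 0) :
    ∃ Q : Place (kRes A) Fk, GenSpec V red (nmCentre A P) Q ∧
      ∀ z ∈ Q.toValuationSubring, GenLocal A V red P z := by
  classical
  let O : ValuationSubring Fk :=
    { carrier := {z | GenLocal A V red P z}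
      mul_mem' := fun {a b} ha hb => genLocal_mul P H ha hb
      one_mem' := genLocal_one P H
      add_mem' := fun {a b} ha hb => genLocal_add P H ha hb
      zero_mem' := genLocal_zero P H
      neg_mem' := fun {a} ha => genLocal_neg P H ha
      mem_or_inv_mem' := hval }
  have hO : ∀ z : Fk, z ∈ O ↔ GenLocal A V red P z := fun z => Iff.rfl
  have hnu : ∀ z : Fk, z ∈ O.nonunits ↔ z = 0 ∨ ¬ GenLocal A V red P z⁻¹ := by
    intro z
    rw [ValuationSubring.mem_nonunits_iff_or]
    exact Iff.rfl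
  have htop : O ≠ ⊤ := by
    obtain ⟨f, hfc, hf, hf0⟩ := hne
    intro h
    apply genLocal_centre_not_unit P H hideal hfc hf hf0
    rw [← hO, h]
    exact ValuationSubring.mem_top _
  refine ⟨vdPlace hrr O (fun c => genLocal_const P H c) htop, ?_, fun z hz => hz⟩
  intro f hfc hf
  show red ⟨f, hf⟩ ∈ O.nonunits
  rw [hnu]
  by_cases h0 : red ⟨f, hf⟩ = 0
  · exact Or.inl h0
  · exact Or.inr (genLocal_centre_not_unit P H hideal hfc hf h0)

end Gen

/-! ### The two components of `nmG` -/

section Nm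

variable {M p : ℕ} [NeZero M] [NeZero p]

theorem nda_algebraMap_coeff (k : Type) [Field k] (a : k) {n : ℤ} (hn : n ≠ 0) :
    (algebraMap k (LaurentSeries k) a).coeff n = 0 := by
  have h1 : algebraMap k (PowerSeries k) a = PowerSeries.C a := by simp
  have h2 : algebraMap k (LaurentSeries k) a = HahnSeries.single 0 a := by
    rw [HahnSeries.algebraMap_apply', h1, HahnSeries.ofPowerSeries_C]
    rfl
  rw [h2, HahnSeries.coeff_single_of_ne hn]

/-- the reduction of `j(q^d)` is not a constant -/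
theorem nda_jBarD_red_ne_const (N d : ℕ) [NeZero N] [NeZero d] (hd : d ∣ N)
    (A : ValuationSubring Qb) (h : Fermat.Agent.H23.jBarD N d hd ∈ gaussOBar N A)
    (κ : kRes A) :
    nmRedOo N A ⟨Fermat.Agent.H23.jBarD N d hd, h⟩ ≠ algebraMap (kRes A) (NmF N A) κ := by
  intro h0
  have h1 : ((nmRedOo N A ⟨Fermat.Agent.H23.jBarD N d hd, h⟩ : NmF N A) :
      LaurentSeries (kRes A)) = algebraMap (kRes A) (LaurentSeries (kRes A)) κ := by
    rw [h0]
    rfl
  rw [coe_nmRedOo, nm_jBarD_red] at h1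
  have h2 := qExpand_coeff_mul (N := d) (jqModC (kRes A)) (-1)
  rw [h1, coeff_jqModC_neg_one] at h2
  have hd0 : ((d : ℤ) * -1) ≠ 0 := by
    have : (d : ℤ) ≠ 0 := by exact_mod_cast NeZero.ne d
    simpa using this
  rw [nda_algebraMap_coeff _ κ hd0] at h2
  exact zero_ne_one h2

/-- **[DVR] from VAL, component `∞`.** -/
theorem nmDvrOo_of_val (hS : NmSoftStatement M p)
    (hval : ∀ (A : ValuationSubring Qb) (_ : NmSetup M p A) (P : Place Qb (FLb (M * p))),
      NmIdealOo M p A P →
      ∀ z : NmF (M * p) A, NmLocalOo M p A P z ∨ NmLocalOo M p A P z⁻¹) :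
    NmDvrOoStatement M p := by
  intro A h P hI
  have hB : NmBase M p A := nmBase_of_soft hS h
  have hpM : ¬ p ∣ M := fun hd =>
    h.prime.one_lt.ne' (Nat.Coprime.eq_one_of_dvd h.cop.symm hd)
  obtain ⟨hac, hrr⟩ := Fermat.Agent.H92.ORD.b1_rrHyp_nmF M p h.prime hpM A h.liesOver
  haveI := hac
  exact genDvr_of_val hB.oo hrr P hI (hval A h P hI)
    (nda_exists_centre hB.oo P (fun κ => nda_jBarD_red_ne_const (M * p) 1 (one_dvd _) A _ κ))

/-- **[DVR] from VAL, component `0`.** -/
theorem nmDvrZero_of_val (hS : NmSoftStatement M p)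
    (hval : ∀ (A : ValuationSubring Qb) (h : NmSetup M p A) (P : Place Qb (FLb (M * p))),
      NmIdealZero M p h.cop A P →
      ∀ z : NmF (M * p) A, NmLocalZero M p h.cop A P z ∨ NmLocalZero M p h.cop A P z⁻¹) :
    NmDvrZeroStatement M p := by
  intro A h P hI
  have hB : NmBase M p A := nmBase_of_soft hS h
  have hpM : ¬ p ∣ M := fun hd =>
    h.prime.one_lt.ne' (Nat.Coprime.eq_one_of_dvd h.cop.symm hd)
  obtain ⟨hac, hrr⟩ := Fermat.Agent.H92.ORD.b1_rrHyp_nmF M p h.prime hpM A h.liesOver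
  haveI := hac
  refine genDvr_of_val hB.zero hrr P hI (hval A h P hI)
    (nda_exists_centre hB.zero P (fun κ => ?_))
  obtain ⟨d'', hd0, hd'', h1, -⟩ := (nmW_spec M p h.cop).1 1 inferInstance (one_dvd _)
  have hmem : Fermat.Agent.H23.jBarD (M * p) d'' hd'' ∈ gaussOBar (M * p) A :=
    nm_jBarD_mem _ d'' hd'' A
  have e : nmRed0 M p h.cop A ⟨nmJ (M * p), hB.zero.j_mem⟩ =
      nmRedOo (M * p) A ⟨Fermat.Agent.H23.jBarD (M * p) d'' hd'', hmem⟩ := by
    rw [nmRed0_apply]
    congr 1
    apply Subtype.ext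
    show nmW M p h.cop (nmJ (M * p)) = _
    unfold nmJ
    exact h1
  rw [e]
  exact nda_jBarD_red_ne_const (M * p) d'' hd'' A hmem κ

end Nm

end Fermat.Agent.H82.ORD
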