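/-
P-ORD (S33), block B1 (instance), sub-lead helper82: **B1-0 DATA**.

THE CONCRETE NODAL REDUCTION `nodalModel N A W hR Q₀ : NodalData N A (Fkb A N) (Fkb A N) (NmNode …)`
of `F = FLb N = ℚ̄(X₀(N))` at a valuation ring `A` of `ℚ̄` (over `p`, `N = M p`, `p ∤ M`).

Everything is INTRINSIC over `(ℚ̄, A)`; number fields enter only in proofs.

* `Voo = nmVoo N A`      : the Gauss ring of `q`-expansions (`= H66.gaussOBar N A`);
* `redOo = nmRedOo N A hR` : the coefficientwise reduction, co-restricted to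
  `Foo = Fkb A N = modularFunctionFieldFullC k N` by the hypothesis `hR : NmRange N A`;
* `V0 = nmV0 N A W`, `red0 = nmRed0 N A W hR` : the transforms under `W` (Atkin-Lehner at `p`);
  `F0 = Foo`;
* charts: `nmChart N A y` = the UNRAMIFIED chart ring: the inertia-fixed elements of `F` which are
  integral over `R[y]`, `R = unrInt A`, for `y = j` and `y = j⁻¹` (so the centres are defined at
  the unramified level, where the model is regular; functions over ramified fields enter only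
  through their values);
* values: `nmIntAt A P y` : "`y(P) ∈ A`", `nmZeroAt A P y` : "`y(P) ∈ 𝔪_A`";
  `nmRegOo … Q y` : "`y ∈ V_∞` and `red_∞ y` is regular at `Q`", `nmVanOo … Q y` : "… vanishes
  at `Q`"; `nmReg0`, `nmVan0` likewise on `C_0`;
* CENTRES (canonical chart: `j` if `j(P) ∈ A`, `j⁻¹` otherwise):
  `nmCtrOo … P Q`   : `P` and the place `Q` of `F_∞` have the same centre (maximal ideal of the
                      chart ring), i.e. `P` specialises to the point `Q` of `C_∞`;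
  `nmCtrZero … P Q'` : the same on `C_0`;
* NODES: `NmNode` = pairs `(Q, Q')` of non-cuspidal places with the same centre on the chart `j`
  (`nmIsNode`);  `nOo = fst`, `n0 = snd`;
* SPECIALISATION `nmR` : `node ν` if `P` is centred at `nOo ν`; else `oo Q` if centred at `Q`;
  else `zero Q'` if centred at `Q'`; else the junk value `oo Q₀`.
-/
import Fermat.Agent.H18.ORD.NodalDefs
import Fermat.Agent.H66.ESD.GaussInterfaces
import Fermat.Agent.H23.BlueprintMod

set_option autoImplicit false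
set_option linter.style.haveILetI false
set_option linter.unusedSectionVars false

noncomputable section

open AlgebraicCurve ModularCurve

namespace Fermat.Agent.H82.ORD

open Fermat.Agent.H18.ORD Fermat.Agent.H72.FF

variable (N : ℕ) [NeZero N] (A : ValuationSubring Qb)

/-! ## The two Gauss rings and their reductions -/

/-- **RANGE**: the reduction of every element of the Gauss ring lies in
`F_k = modularFunctionFieldFullC k N`. -/
def NmRange : Prop :=
  ∀ u : ↥(Fermat.Agent.H66.gaussOBar N A),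
    Fermat.Agent.H66.gaussRedBar N A u ∈ Fermat.Agent.H18.rvFk (kRes A) N

/-- `V_∞` : the Gauss ring of `q`-expansions. -/
def nmVoo : Subring (FLb N) := Fermat.Agent.H66.gaussOBar N A

/-- `red_∞ : V_∞ → F_∞ = Fkb A N`. -/
def nmRedOo (hR : NmRange N A) : ↥(nmVoo N A) →+* Fkb A N :=
  RingHom.codRestrict (Fermat.Agent.H66.gaussRedBar N A) (Fermat.Agent.H18.rvFk (kRes A) N) hR

/-- `V_0 = W⁻¹ (V_∞)`. -/
def nmV0 (W : FLb N ≃ₐ[Qb] FLb N) : Subring (FLb N) :=
  (nmVoo N A).comap (W : FLb N →+* FLb N)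

/-- `red_0 = red_∞ ∘ W : V_0 → F_0 = Fkb A N`. -/
def nmRed0 (W : FLb N ≃ₐ[Qb] FLb N) (hR : NmRange N A) : ↥(nmV0 N A W) →+* Fkb A N :=
  (nmRedOo N A hR).comp
    ((W : FLb N →+* FLb N).restrict (nmV0 N A W) (nmVoo N A) (fun _ hx => hx))

theorem mem_nmV0_iff (W : FLb N ≃ₐ[Qb] FLb N) (y : FLb N) :
    y ∈ nmV0 N A W ↔ W y ∈ nmVoo N A := Iff.rfl

theorem nmRedOo_coe (hR : NmRange N A) (u : ↥(nmVoo N A)) :
    ((nmRedOo N A hR u : Fkb A N) : LaurentSeries (kRes A)) =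
      Fermat.Agent.H66.gaussRedBar N A u := rfl

theorem nmRed0_apply (W : FLb N ≃ₐ[Qb] FLb N) (hR : NmRange N A) (w : FLb N)
    (hw : w ∈ nmV0 N A W) :
    nmRed0 N A W hR ⟨w, hw⟩ = nmRedOo N A hR ⟨W w, hw⟩ := rfl

/-! ## The charts -/

/-- `j`. -/
def nmJ : FLb N := Fermat.Agent.H23.jBar N

/-- The subring `R[y]` of `F`, `R = unrInt A` the ring of integers of the maximal unramified
extension. -/
def nmChartRing (y : FLb N) : Subring (FLb N) :=
  Subring.closure ((algebraMap Qb (FLb N)) '' (unrInt A : Set Qb) ∪ {y})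

/-- `B(y)` : the UNRAMIFIED chart ring: the elements of `F` which are fixed by the inertia group
(coefficientwise) and integral over `R[y]`.  (It is the union of the chart rings
`chartClosure A₂ (ModelField K₂ N) y` over the number fields `K₂ ⊆ ℚ̄` unramified at `A`.) -/
def nmChart (y : FLb N) : Set (FLb N) :=
  {b | IsUnrFn A N b ∧ (nmChartRing N A y).subtype.IsIntegralElem b}

/-! ## Values at the places of the generic fibre and of the two components -/

variable {N}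

/-- "`y(P) ∈ A`". -/
def nmIntAt (P : Place Qb (FLb N)) (y : FLb N) : Prop := ∃ c ∈ A, HasValue P y c

/-- "`y(P) ∈ 𝔪_A`". -/
def nmZeroAt (P : Place Qb (FLb N)) (y : FLb N) : Prop := ∃ c ∈ A.nonunits, HasValue P y c

variable (N)

/-- "`y ∈ V_∞` and `red_∞ y` is regular at `Q`". -/
def nmRegOo (hR : NmRange N A) (Q : Place (kRes A) (Fkb A N)) (y : FLb N) : Prop :=
  ∃ h : y ∈ nmVoo N A, nmRedOo N A hR ⟨y, h⟩ ∈ Q.toValuationSubring

/-- "`y ∈ V_∞` and `red_∞ y` vanishes at `Q`". -/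
def nmVanOo (hR : NmRange N A) (Q : Place (kRes A) (Fkb A N)) (y : FLb N) : Prop :=
  ∃ h : y ∈ nmVoo N A, nmRedOo N A hR ⟨y, h⟩ ∈ Q.toValuationSubring.nonunits

/-- "`y ∈ V_0` and `red_0 y` is regular at `Q'`". -/
def nmReg0 (W : FLb N ≃ₐ[Qb] FLb N) (hR : NmRange N A) (Q : Place (kRes A) (Fkb A N))
    (y : FLb N) : Prop :=
  ∃ h : y ∈ nmV0 N A W, nmRed0 N A W hR ⟨y, h⟩ ∈ Q.toValuationSubring

/-- "`y ∈ V_0` and `red_0 y` vanishes at `Q'`". -/
def nmVan0 (W : FLb N ≃ₐ[Qb] FLb N) (hR : NmRange N A) (Q : Place (kRes A) (Fkb A N))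
    (y : FLb N) : Prop :=
  ∃ h : y ∈ nmV0 N A W, nmRed0 N A W hR ⟨y, h⟩ ∈ Q.toValuationSubring.nonunits

theorem nmReg0_iff (W : FLb N ≃ₐ[Qb] FLb N) (hR : NmRange N A) (Q : Place (kRes A) (Fkb A N))
    (y : FLb N) : nmReg0 N A W hR Q y ↔ nmRegOo N A hR Q (W y) := Iff.rfl

theorem nmVan0_iff (W : FLb N ≃ₐ[Qb] FLb N) (hR : NmRange N A) (Q : Place (kRes A) (Fkb A N))
    (y : FLb N) : nmVan0 N A W hR Q y ↔ nmVanOo N A hR Q (W y) := Iff.rfl

/-! ## Centres -/

/-- **`P` specialises to the point `Q` of `C_∞`**: same centre on the canonical chart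
(`j` if `j(P) ∈ A`, `j⁻¹` otherwise). -/
def nmCtrOo (hR : NmRange N A) (P : Place Qb (FLb N)) (Q : Place (kRes A) (Fkb A N)) : Prop :=
  (nmIntAt A P (nmJ N) ∧ nmRegOo N A hR Q (nmJ N) ∧
      ∀ b ∈ nmChart N A (nmJ N), (nmVanOo N A hR Q b ↔ nmZeroAt A P b)) ∨
    (¬ nmIntAt A P (nmJ N) ∧ ¬ nmRegOo N A hR Q (nmJ N) ∧
      ∀ b ∈ nmChart N A (nmJ N)⁻¹, (nmVanOo N A hR Q b ↔ nmZeroAt A P b))

/-- **`P` specialises to the point `Q'` of `C_0`**. -/
def nmCtrZero (W : FLb N ≃ₐ[Qb] FLb N) (hR : NmRange N A) (P : Place Qb (FLb N))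
    (Q : Place (kRes A) (Fkb A N)) : Prop :=
  (nmIntAt A P (nmJ N) ∧ nmReg0 N A W hR Q (nmJ N) ∧
      ∀ b ∈ nmChart N A (nmJ N), (nmVan0 N A W hR Q b ↔ nmZeroAt A P b)) ∨
    (¬ nmIntAt A P (nmJ N) ∧ ¬ nmReg0 N A W hR Q (nmJ N) ∧
      ∀ b ∈ nmChart N A (nmJ N)⁻¹, (nmVan0 N A W hR Q b ↔ nmZeroAt A P b))

/-- **The pair `(Q, Q')` is a node**: `Q` (on `C_∞`) and `Q'` (on `C_0`) are non-cuspidal and
have the same centre on the chart `j`. -/
def nmIsNode (W : FLb N ≃ₐ[Qb] FLb N) (hR : NmRange N A)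
    (Q Q' : Place (kRes A) (Fkb A N)) : Prop :=
  nmRegOo N A hR Q (nmJ N) ∧ nmReg0 N A W hR Q' (nmJ N) ∧
    ∀ b ∈ nmChart N A (nmJ N), (nmVanOo N A hR Q b ↔ nmVan0 N A W hR Q' b)

/-- **The nodes.** -/
def NmNode (W : FLb N ≃ₐ[Qb] FLb N) (hR : NmRange N A) : Type :=
  {x : Place (kRes A) (Fkb A N) × Place (kRes A) (Fkb A N) // nmIsNode N A W hR x.1 x.2}

/-- the branch of a node on `C_∞` -/
def nmNOo (W : FLb N ≃ₐ[Qb] FLb N) (hR : NmRange N A) (ν : NmNode N A W hR) :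
    Place (kRes A) (Fkb A N) := ν.1.1

/-- the branch of a node on `C_0` -/
def nmN0 (W : FLb N ≃ₐ[Qb] FLb N) (hR : NmRange N A) (ν : NmNode N A W hR) :
    Place (kRes A) (Fkb A N) := ν.1.2

theorem nmIsNode_node (W : FLb N ≃ₐ[Qb] FLb N) (hR : NmRange N A) (ν : NmNode N A W hR) :
    nmIsNode N A W hR (nmNOo N A W hR ν) (nmN0 N A W hR ν) := ν.2

/-! ## The specialisation -/

open Classical in
/-- **The specialisation of points.** -/
def nmR (W : FLb N ≃ₐ[Qb] FLb N) (hR : NmRange N A) (Q₀ : Place (kRes A) (Fkb A N))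
    (P : Place Qb (FLb N)) :
    NPt (Place (kRes A) (Fkb A N)) (Place (kRes A) (Fkb A N)) (NmNode N A W hR) :=
  if h : ∃ ν : NmNode N A W hR, nmCtrOo N A hR P (nmNOo N A W hR ν) then NPt.node h.choose
  else if h' : ∃ Q, nmCtrOo N A hR P Q then NPt.oo h'.choose
  else if h'' : ∃ Q, nmCtrZero N A W hR P Q then NPt.zero h''.choose
  else NPt.oo Q₀

/-- **THE CONCRETE NODAL REDUCTION.** -/
def nodalModel (W : FLb N ≃ₐ[Qb] FLb N) (hR : NmRange N A) (Q₀ : Place (kRes A) (Fkb A N)) :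
    NodalData N A (Fkb A N) (Fkb A N) (NmNode N A W hR) where
  Voo := nmVoo N A
  V0 := nmV0 N A W
  redOo := nmRedOo N A hR
  red0 := nmRed0 N A W hR
  nOo := nmNOo N A W hR
  n0 := nmN0 N A W hR
  r := nmR N A W hR Q₀

/-! ## Unfolding lemmas for `nmR` -/

section Unfold

variable (W : FLb N ≃ₐ[Qb] FLb N) (hR : NmRange N A) (Q₀ : Place (kRes A) (Fkb A N))

theorem nmR_node_spec {P : Place Qb (FLb N)} {ν : NmNode N A W hR}
    (h : nmR N A W hR Q₀ P = NPt.node ν) : nmCtrOo N A hR P (nmNOo N A W hR ν) := by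
  classical
  unfold nmR at h
  split_ifs at h with h1 h2 h3
  · have := NPt.node.inj h
    rw [← this]
    exact h1.choose_spec

theorem nmR_of_node {P : Place Qb (FLb N)}
    (h : ∃ ν : NmNode N A W hR, nmCtrOo N A hR P (nmNOo N A W hR ν)) :
    ∃ ν : NmNode N A W hR, nmR N A W hR Q₀ P = NPt.node ν ∧
      nmCtrOo N A hR P (nmNOo N A W hR ν) := by
  classical
  refine ⟨h.choose, ?_, h.choose_spec⟩
  unfold nmR
  rw [dif_pos h]

theorem nmR_of_oo {P : Place Qb (FLb N)}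
    (h : ¬ ∃ ν : NmNode N A W hR, nmCtrOo N A hR P (nmNOo N A W hR ν))
    (h' : ∃ Q, nmCtrOo N A hR P Q) :
    ∃ Q, nmR N A W hR Q₀ P = NPt.oo Q ∧ nmCtrOo N A hR P Q := by
  classical
  refine ⟨h'.choose, ?_, h'.choose_spec⟩
  unfold nmR
  rw [dif_neg h, dif_pos h']

theorem nmR_of_zero {P : Place Qb (FLb N)}
    (h : ¬ ∃ ν : NmNode N A W hR, nmCtrOo N A hR P (nmNOo N A W hR ν))
    (h' : ¬ ∃ Q, nmCtrOo N A hR P Q)
    (h'' : ∃ Q, nmCtrZero N A W hR P Q) :
    ∃ Q, nmR N A W hR Q₀ P = NPt.zero Q ∧ nmCtrZero N A W hR P Q := by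
  classical
  refine ⟨h''.choose, ?_, h''.choose_spec⟩
  unfold nmR
  rw [dif_neg h, dif_neg h', dif_pos h'']

theorem nmR_zero_spec {P : Place Qb (FLb N)} {Q : Place (kRes A) (Fkb A N)}
    (h : nmR N A W hR Q₀ P = NPt.zero Q) :
    nmCtrZero N A W hR P Q ∧ ¬ ∃ Q', nmCtrOo N A hR P Q' := by
  classical
  unfold nmR at h
  split_ifs at h with h1 h2 h3
  · have := NPt.zero.inj h
    rw [← this]
    exact ⟨h3.choose_spec, h2⟩

theorem nmR_oo_spec {P : Place Qb (FLb N)} {Q : Place (kRes A) (Fkb A N)}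
    (h : nmR N A W hR Q₀ P = NPt.oo Q) :
    (nmCtrOo N A hR P Q ∧ ¬ ∃ ν : NmNode N A W hR, nmCtrOo N A hR P (nmNOo N A W hR ν)) ∨
      ((¬ ∃ Q', nmCtrOo N A hR P Q') ∧ (¬ ∃ Q', nmCtrZero N A W hR P Q') ∧ Q = Q₀) := by
  classical
  unfold nmR at h
  split_ifs at h with h1 h2 h3
  · have := NPt.oo.inj h
    rw [← this]
    exact Or.inl ⟨h2.choose_spec, h1⟩
  · have := NPt.oo.inj h
    exact Or.inr ⟨h2, h3, this.symm⟩

end Unfold

end Fermat.Agent.H82.ORD

end
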