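/-
P-ORD (S33), block B1 (instance), sub-lead helper82: **THE CONTRACTS OF THE B1 BLOCKS** and the
assembly `nodalInstance_of_blocks`.

Target: `Fermat.Agent.H72.ORD.NodalInstanceStatement (M * p) p` for `p` an odd prime, `p ∤ M`,
`4 ∣ M`, with the concrete data `G = nodalModel (M * p) A W hR Q₀`
(`Fermat.Agent.H82.ORD.NodalModel`).

Standing hypotheses of every block: `NmStd M p A W` (+ `hR : NmRange (M * p) A`, `Q₀` arbitrary).

The fields of `NodalSetup` are grouped into the blocks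

* `NmGaussHyp`   (GAUSS)  : `const_*`, `red_const_*`, `norm_*`, `inv_*`, `surj_*`, `ne`;
* `NmSpecHyp`    (SPEC)   : `nOo_inj`, `n0_inj`, `r_oo`, `r_zero`;
* `NmSmoothHyp`  (M2)     : `smooth_oo`, `smooth_zero`;
* `NmNodeHyp`    (NODE)   : `node_le`, `node_lt`, `glue`;
* `NmLatticeHyp` (LATT)   : `lattice`;
* `NodalGalHyp`  (GAL), `NodalLift` (PT + LIFT), `NmCountHyp` (COUNT), `NmRRHyp` (RR).

Each block statement `Nm…Statement M p` quantifies over `A W hR Q₀` and `NmStd M p A W`.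
-/
import Fermat.Agent.H82.ORD.NodalModel
import Fermat.Agent.H72.ORD.NodalBlocks
import Fermat.Agent.H82.SS.Interfaces

set_option autoImplicit false
set_option linter.style.haveILetI false
set_option linter.unusedSectionVars false

noncomputable section

open AlgebraicCurve ModularCurve

namespace Fermat.Agent.H82.ORD

open Fermat.Agent.H18.ORD Fermat.Agent.H72.FF Fermat.Agent.H72.ORD

/-! ## The field groups of `NodalRvHyp`, for an arbitrary nodal datum -/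

section Groups

variable {N : ℕ} {A : ValuationSubring Qb} {Foo F0 : Type} [Field Foo] [Field F0]
  [Algebra (kRes A) Foo] [Algebra (kRes A) F0] {ι : Type}

/-- (GAUSS) the Gauss-ring fields of `NodalRvHyp`. -/
structure NmGaussHyp (G : NodalData N A Foo F0 ι) : Prop where
  const_oo : ∀ c : Qb, algebraMap Qb (FLb N) c ∈ G.Voo ↔ c ∈ A
  const_zero : ∀ c : Qb, algebraMap Qb (FLb N) c ∈ G.V0 ↔ c ∈ A
  red_const_oo : ∀ (c : A) (h : algebraMap Qb (FLb N) (c : Qb) ∈ G.Voo),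
    G.redOo ⟨_, h⟩ = algebraMap (kRes A) Foo (IsLocalRing.residue A c)
  red_const_zero : ∀ (c : A) (h : algebraMap Qb (FLb N) (c : Qb) ∈ G.V0),
    G.red0 ⟨_, h⟩ = algebraMap (kRes A) F0 (IsLocalRing.residue A c)
  norm_oo : ∀ φ : FLb N, φ ≠ 0 → ∃ (c : Qb) (u : G.Voo), c ≠ 0 ∧ G.redOo u ≠ 0 ∧
    φ = algebraMap Qb (FLb N) c * (u : FLb N)
  norm_zero : ∀ φ : FLb N, φ ≠ 0 → ∃ (c : Qb) (u : G.V0), c ≠ 0 ∧ G.red0 u ≠ 0 ∧
    φ = algebraMap Qb (FLb N) c * (u : FLb N)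
  inv_oo : ∀ u : G.Voo, G.redOo u ≠ 0 → (u : FLb N)⁻¹ ∈ G.Voo
  inv_zero : ∀ u : G.V0, G.red0 u ≠ 0 → (u : FLb N)⁻¹ ∈ G.V0
  surj_oo : Function.Surjective G.redOo
  surj_zero : Function.Surjective G.red0
  ne : G.Voo ≠ G.V0

/-- (SPEC) the specialisation fields of `NodalRvHyp`. -/
structure NmSpecHyp (G : NodalData N A Foo F0 ι) : Prop where
  nOo_inj : Function.Injective G.nOo
  n0_inj : Function.Injective G.n0
  r_oo : ∀ P Q, G.r P = NPt.oo Q → Q ∉ Set.range G.nOo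
  r_zero : ∀ P Q, G.r P = NPt.zero Q → Q ∉ Set.range G.n0

/-- (M2) the conservation law at the smooth points. -/
structure NmSmoothHyp (G : NodalData N A Foo F0 ι) : Prop where
  smooth_oo : ∀ u : G.Voo, G.redOo u ≠ 0 → ∀ D : Divisor Qb (FLb N),
    (∀ P, D P = P.ord (u : FLb N)) → ∀ Q : Place (kRes A) Foo, Q ∉ Set.range G.nOo →
      Finsupp.mapDomain G.r D (NPt.oo Q) = Q.ord (G.redOo u)
  smooth_zero : ∀ w : G.V0, G.red0 w ≠ 0 → ∀ D : Divisor Qb (FLb N),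
    (∀ P, D P = P.ord (w : FLb N)) → ∀ Q : Place (kRes A) F0, Q ∉ Set.range G.n0 →
      Finsupp.mapDomain G.r D (NPt.zero Q) = Q.ord (G.red0 w)

/-- (NODE) the node fields (M3), (M4) of `NodalRvHyp`. -/
structure NmNodeHyp (p : ℕ) (G : NodalData N A Foo F0 ι) : Prop where
  node_le : ∀ (u : G.Voo) (w : G.V0) (c : Qb), G.redOo u ≠ 0 → G.red0 w ≠ 0 →
    (w : FLb N) = algebraMap Qb (FLb N) c * (u : FLb N) →
    ∀ ν : ι, (∀ P, G.r P = NPt.node ν → 0 ≤ P.ord (u : FLb N)) →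
      (p : Qb) ^ ((G.nOo ν).ord (G.redOo u)) * c ∈ A ∧
      (p : Qb) ^ ((G.n0 ν).ord (G.red0 w)) * c⁻¹ ∈ A
  node_lt : ∀ (u : G.Voo) (w : G.V0) (c : Qb), G.redOo u ≠ 0 → G.red0 w ≠ 0 →
    (w : FLb N) = algebraMap Qb (FLb N) c * (u : FLb N) →
    ∀ ν : ι, (∀ P, G.r P = NPt.node ν → 0 ≤ P.ord (u : FLb N)) →
      (∃ P, G.r P = NPt.node ν ∧ 0 < P.ord (u : FLb N)) →
      (p : Qb) ^ ((G.nOo ν).ord (G.redOo u)) * c ∈ A.nonunits ∧
      (p : Qb) ^ ((G.n0 ν).ord (G.red0 w)) * c⁻¹ ∈ A.nonunits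
  glue : ∀ (u : FLb N) (hu : u ∈ G.Voo) (hu0 : u ∈ G.V0),
    G.redOo ⟨u, hu⟩ ≠ 0 → G.red0 ⟨u, hu0⟩ ≠ 0 →
    ∀ ν : ι, (∀ P, G.r P = NPt.node ν → P.ord u = 0) →
      ∃ κ : kRes A, κ ≠ 0 ∧
        G.redOo ⟨u, hu⟩ - algebraMap (kRes A) Foo κ ∈ (G.nOo ν).toValuationSubring.nonunits ∧
        G.red0 ⟨u, hu0⟩ - algebraMap (kRes A) F0 κ ∈ (G.n0 ν).toValuationSubring.nonunits

/-- (LATT) the pair-lattice field (M5) of `NodalRvHyp`. -/
structure NmLatticeHyp (G : NodalData N A Foo F0 ι) : Prop where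
  lattice : ∀ f : FLb N, (∀ c : Qb, f ≠ algebraMap Qb (FLb N) c) →
    ∃ (α β : Qb) (h : algebraMap Qb (FLb N) α * f + algebraMap Qb (FLb N) β ∈ G.Voo)
      (h0 : algebraMap Qb (FLb N) α * f + algebraMap Qb (FLb N) β ∈ G.V0), α ≠ 0 ∧
      ¬ ∃ κ : kRes A, G.redOo ⟨_, h⟩ = algebraMap (kRes A) Foo κ ∧
        G.red0 ⟨_, h0⟩ = algebraMap (kRes A) F0 κ

/-- (COUNT) the nodes: finitely many, at least one, and `p_a (X_s) = g`. -/
structure NmCountHyp (G : NodalData N A Foo F0 ι) (g : ℕ) : Prop where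
  finite_nodes : Finite ι
  nonempty_nodes : Nonempty ι
  genus_eq : g + 1 = genusFF (kRes A) Foo + genusFF (kRes A) F0 + Nat.card ι

/-- (RR) the Riemann packages. -/
structure NmRRHyp (N : ℕ) (A : ValuationSubring Qb) (Foo F0 : Type) [Field Foo] [Field F0]
    [Algebra (kRes A) Foo] [Algebra (kRes A) F0] (g : ℕ) : Prop where
  algClosed : IsAlgClosed (kRes A)
  pkgL : Fermat.Agent.H27.ESD.RiemannPackage Qb (FLb N) g
  rrOo : Fermat.Agent.H58.RRHyp (kRes A) Foo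
  rrZero : Fermat.Agent.H58.RRHyp (kRes A) F0

/-- `NodalRvHyp` from its five field groups. -/
theorem nodalRvHyp_of_groups {p : ℕ} {G : NodalData N A Foo F0 ι} (h1 : NmGaussHyp G)
    (h2 : NmSpecHyp G) (h3 : NmSmoothHyp G) (h4 : NmNodeHyp p G) (h5 : NmLatticeHyp G) :
    NodalRvHyp p G where
  const_oo := h1.const_oo
  const_zero := h1.const_zero
  red_const_oo := h1.red_const_oo
  red_const_zero := h1.red_const_zero
  norm_oo := h1.norm_oo
  norm_zero := h1.norm_zero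
  inv_oo := h1.inv_oo
  inv_zero := h1.inv_zero
  surj_oo := h1.surj_oo
  surj_zero := h1.surj_zero
  ne := h1.ne
  nOo_inj := h2.nOo_inj
  n0_inj := h2.n0_inj
  r_oo := h2.r_oo
  r_zero := h2.r_zero
  smooth_oo := h3.smooth_oo
  smooth_zero := h3.smooth_zero
  node_le := h4.node_le
  node_lt := h4.node_lt
  glue := h4.glue
  lattice := h5.lattice

/-- `NodalSetup` from the blocks. -/
theorem nodalSetup_of_groups {p g : ℕ} {G : NodalData N A Foo F0 ι} (hp : p.Prime)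
    (hA : A.LiesOverPrime p) (h1 : NmGaussHyp G) (h2 : NmSpecHyp G) (h3 : NmSmoothHyp G)
    (h4 : NmNodeHyp p G) (h5 : NmLatticeHyp G) (h6 : NodalGalHyp G) (h7 : NodalLift G)
    (h8 : NmCountHyp G g) (h9 : NmRRHyp N A Foo F0 g) :
    NodalSetup N p A Foo F0 ι G g where
  prime := hp
  liesOver := hA
  algClosed := h9.algClosed
  rv := nodalRvHyp_of_groups h1 h2 h3 h4 h5
  gal := h6
  lift := h7
  finite_nodes := h8.finite_nodes
  nonempty_nodes := h8.nonempty_nodes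
  pkgL := h9.pkgL
  rrOo := h9.rrOo
  rrZero := h9.rrZero
  genus_eq := h8.genus_eq

end Groups

/-! ## Standing hypotheses and the block statements for the concrete model -/

/-- **Standing hypotheses of B1**: `p` odd prime, `p ∤ M`, `4 ∣ M`, `A` over `p`, `W` the
Atkin-Lehner automorphism at `p` of `ℚ̄(X₀(M p))`. -/
structure NmStd (M p : ℕ) [NeZero M] [NeZero p] (A : ValuationSubring Qb)
    (W : FLb (M * p) ≃ₐ[Qb] FLb (M * p)) : Prop where
  prime : p.Prime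
  odd : p ≠ 2
  ndvd : ¬ p ∣ M
  four : 4 ∣ M
  liesOver : A.LiesOverPrime p
  al : Fermat.Agent.H82.SS.IsAtkinLehnerAt M p W

section Blocks

variable (M p : ℕ) [NeZero M] [NeZero p] [NeZero (M * p)]

/-- **B1-RANGE.** -/
def NmRangeStatement : Prop :=
  ∀ (A : ValuationSubring Qb) (W : FLb (M * p) ≃ₐ[Qb] FLb (M * p)), NmStd M p A W →
    NmRange (M * p) A

/-- **B1-GAUSS.** -/
def NmGaussStatement : Prop :=
  ∀ (A : ValuationSubring Qb) (W : FLb (M * p) ≃ₐ[Qb] FLb (M * p)) (hR : NmRange (M * p) A)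
    (Q₀ : Place (kRes A) (Fkb A (M * p))), NmStd M p A W →
    NmGaussHyp (nodalModel (M * p) A W hR Q₀)

/-- **B1-SPEC.** -/
def NmSpecStatement : Prop :=
  ∀ (A : ValuationSubring Qb) (W : FLb (M * p) ≃ₐ[Qb] FLb (M * p)) (hR : NmRange (M * p) A)
    (Q₀ : Place (kRes A) (Fkb A (M * p))), NmStd M p A W →
    NmSpecHyp (nodalModel (M * p) A W hR Q₀)

/-- **B1-M2.** -/
def NmSmoothStatement : Prop :=
  ∀ (A : ValuationSubring Qb) (W : FLb (M * p) ≃ₐ[Qb] FLb (M * p)) (hR : NmRange (M * p) A)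
    (Q₀ : Place (kRes A) (Fkb A (M * p))), NmStd M p A W →
    NmSmoothHyp (nodalModel (M * p) A W hR Q₀)

/-- **B1-NODE.** -/
def NmNodeStatement : Prop :=
  ∀ (A : ValuationSubring Qb) (W : FLb (M * p) ≃ₐ[Qb] FLb (M * p)) (hR : NmRange (M * p) A)
    (Q₀ : Place (kRes A) (Fkb A (M * p))), NmStd M p A W →
    NmNodeHyp p (nodalModel (M * p) A W hR Q₀)

/-- **B1-LATT.** -/
def NmLatticeStatement : Prop :=
  ∀ (A : ValuationSubring Qb) (W : FLb (M * p) ≃ₐ[Qb] FLb (M * p)) (hR : NmRange (M * p) A)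
    (Q₀ : Place (kRes A) (Fkb A (M * p))), NmStd M p A W →
    NmLatticeHyp (nodalModel (M * p) A W hR Q₀)

/-- **B1-GAL.** -/
def NmGalStatement : Prop :=
  ∀ (A : ValuationSubring Qb) (W : FLb (M * p) ≃ₐ[Qb] FLb (M * p)) (hR : NmRange (M * p) A)
    (Q₀ : Place (kRes A) (Fkb A (M * p))), NmStd M p A W →
    NodalGalHyp (nodalModel (M * p) A W hR Q₀)

/-- **B1-LIFT** (contains (PT)). -/
def NmLiftStatement : Prop :=
  ∀ (A : ValuationSubring Qb) (W : FLb (M * p) ≃ₐ[Qb] FLb (M * p)) (hR : NmRange (M * p) A)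
    (Q₀ : Place (kRes A) (Fkb A (M * p))), NmStd M p A W →
    NodalLift (nodalModel (M * p) A W hR Q₀)

/-- **B1-RR** (the genus `g` of `ℚ̄(X₀(M p))` is part of the output). -/
def NmRRStatement : Prop :=
  ∀ (A : ValuationSubring Qb) (W : FLb (M * p) ≃ₐ[Qb] FLb (M * p)), NmStd M p A W →
    ∃ g : ℕ, NmRRHyp (M * p) A (Fkb A (M * p)) (Fkb A (M * p)) g

/-- **B1-COUNT** (for every genus `g` of a Riemann package of `ℚ̄(X₀(M p))`). -/
def NmCountStatement : Prop :=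
  ∀ (A : ValuationSubring Qb) (W : FLb (M * p) ≃ₐ[Qb] FLb (M * p)) (hR : NmRange (M * p) A)
    (Q₀ : Place (kRes A) (Fkb A (M * p))), NmStd M p A W →
    ∀ g : ℕ, Fermat.Agent.H27.ESD.RiemannPackage Qb (FLb (M * p)) g →
      NmCountHyp (nodalModel (M * p) A W hR Q₀) g

/-- **B1-ASM**: the nodal instance from the blocks and the existence of Atkin-Lehner. -/
theorem nodalInstance_of_blocks (hp : p.Prime) (hp2 : p ≠ 2) (hpM : ¬ p ∣ M) (h4 : 4 ∣ M)
    (hW : ∃ W : FLb (M * p) ≃ₐ[Qb] FLb (M * p), Fermat.Agent.H82.SS.IsAtkinLehnerAt M p W)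
    (hRange : NmRangeStatement M p) (hGauss : NmGaussStatement M p)
    (hSpec : NmSpecStatement M p) (hSmooth : NmSmoothStatement M p)
    (hNode : NmNodeStatement M p) (hLatt : NmLatticeStatement M p)
    (hGal : NmGalStatement M p) (hLift : NmLiftStatement M p) (hRR : NmRRStatement M p)
    (hCount : NmCountStatement M p) :
    NodalInstanceStatement (M * p) p := by
  intro A hA
  obtain ⟨W, hWal⟩ := hW
  have hS : NmStd M p A W := ⟨hp, hp2, hpM, h4, hA, hWal⟩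
  have hR : NmRange (M * p) A := hRange A W hS
  obtain ⟨g, hrr⟩ := hRR A W hS
  obtain ⟨Q₀⟩ := hrr.rrOo.exists_place
  refine ⟨Fkb A (M * p), Fkb A (M * p), inferInstance, inferInstance, inferInstance,
    inferInstance, NmNode (M * p) A W hR, nodalModel (M * p) A W hR Q₀, g, ?_⟩
  exact nodalSetup_of_groups hp hA (hGauss A W hR Q₀ hS) (hSpec A W hR Q₀ hS)
    (hSmooth A W hR Q₀ hS) (hNode A W hR Q₀ hS) (hLatt A W hR Q₀ hS) (hGal A W hR Q₀ hS)
    (hLift A W hR Q₀ hS) (hCount A W hR Q₀ hS g hrr.pkgL) hrr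

end Blocks

end Fermat.Agent.H82.ORD

end
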