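import Mathlib
import Fermat.Agent.H16.ORD.SepRR
import Fermat.Agent.H83.SS2.AboveDVR

/-!
# P-ORD, block B1, row [DVR], abstract part (helper82): valuation subrings of a function field
are discrete

`K` algebraically closed, `F / K` a function field satisfying Riemann's hypotheses
`Fermat.Agent.H58.RRHyp K F`.

* `vd_pir_of_factorization` : a domain in which every non-zero element is a unit times a power
  of a fixed element is a principal ideal ring.
* `vd_simple_pir` : a valuation subring `V ⊇ K` of `F` containing `x` induces on the field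
  `E = K(x)` either the trivial valuation ring or a principal one (the localisation of `K[x]` at a
  prime element).
* `valDisc` : **every valuation subring `V ≠ ⊤` of `F` containing `K` is a principal ideal ring**
  (separating element of helper16 + `isPrincipalIdealRing_of_above` of helper83).
* `vdPlace` : the place of `F / K` with valuation ring `V`.
-/

set_option autoImplicit false
set_option linter.unusedSectionVars false
set_option linter.style.haveILetI false
set_option linter.unusedVariables false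

noncomputable section

open AlgebraicCurve IntermediateField Polynomial

namespace Fermat.Agent.H82.ORD

/-- a domain in which every non-zero element is a unit times a power of `π` is principal -/
theorem vd_pir_of_factorization {R : Type*} [CommRing R] [IsDomain R] (π : R)
    (h : ∀ y : R, y ≠ 0 → ∃ (n : ℕ) (u : Rˣ), y = u * π ^ n) : IsPrincipalIdealRing R := by
  classical
  refine ⟨fun I => ?_⟩
  by_cases hI : I = ⊥
  · rw [hI]
    exact bot_isPrincipal
  obtain ⟨y₀, hy₀I, hy₀⟩ := Submodule.exists_mem_ne_zero_of_ne_bot hI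
  have hex : ∃ n : ℕ, ∃ y ∈ I, ∃ u : Rˣ, y = u * π ^ n := by
    obtain ⟨n, u, hu⟩ := h y₀ hy₀
    exact ⟨n, y₀, hy₀I, u, hu⟩
  obtain ⟨y₁, hy₁I, u₁, hy₁⟩ := Nat.find_spec hex
  refine ⟨⟨π ^ Nat.find hex, ?_⟩⟩
  apply le_antisymm
  · intro y hy
    rw [Submodule.mem_span_singleton]
    by_cases hy0 : y = 0
    · exact ⟨0, by rw [hy0, zero_smul]⟩
    obtain ⟨m, u, hu⟩ := h y hy0
    have hm : Nat.find hex ≤ m := Nat.find_min' hex ⟨y, hy, u, hu⟩
    refine ⟨u * π ^ (m - Nat.find hex), ?_⟩
    rw [smul_eq_mul, mul_assoc, ← pow_add, Nat.sub_add_cancel hm, hu]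
  · rw [Submodule.span_le, Set.singleton_subset_iff]
    have h1 : π ^ Nat.find hex = (↑u₁⁻¹ : R) * y₁ := by
      rw [hy₁, ← mul_assoc, Units.inv_mul, one_mul]
    rw [SetLike.mem_coe, h1]
    exact I.mul_mem_left _ hy₁I

section Simple

variable {K F : Type*} [Field K] [Field F] [Algebra K F]

theorem vd_aeval_mem (V : ValuationSubring F) (hK : ∀ c : K, algebraMap K F c ∈ V) {x : F}
    (hx : x ∈ V) (r : K[X]) : aeval x r ∈ V := by
  rw [Polynomial.aeval_eq_sum_range]
  refine V.toSubring.sum_mem fun i _ => ?_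
  rw [Algebra.smul_def]
  exact V.mul_mem _ _ (hK _) (pow_mem hx i)

theorem vd_aeval_mem_field (E : IntermediateField K F) {x : F} (hx : x ∈ E) (r : K[X]) :
    aeval x r ∈ E := by
  rw [Polynomial.aeval_eq_sum_range]
  refine E.toSubring.sum_mem fun i _ => ?_
  rw [Algebra.smul_def]
  exact E.mul_mem (E.algebraMap_mem _) (pow_mem hx i)

/-- an element of `V` which is not in the maximal ideal has its inverse in `V` -/
theorem vd_inv_mem (V : ValuationSubring F) {a : F} (ha : a ∈ V) (hn : a ∉ V.nonunits) :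
    a⁻¹ ∈ V := by
  rw [ValuationSubring.mem_nonunits_iff, not_lt] at hn
  rw [← ValuationSubring.valuation_le_one_iff, map_inv₀]
  exact inv_le_one_of_one_le₀ hn

/-- **the induced valuation ring on a simple extension `K(x)`, `x ∈ V`, is trivial or principal** -/
theorem vd_simple_pir (V : ValuationSubring F) (hK : ∀ c : K, algebraMap K F c ∈ V) {x : F}
    (hx : x ∈ V) (E : IntermediateField K F) (hxE : x ∈ E)
    (hgen : ∀ y ∈ E, ∃ r s : K[X], y = aeval x r / aeval x s)
    (hO : V.comap (algebraMap E F) ≠ ⊤) :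
    IsPrincipalIdealRing (V.comap (algebraMap E F)) := by
  classical
  have hmem := vd_aeval_mem V hK hx
  have hmemE := vd_aeval_mem_field E hxE
  -- the prime ideal of `K[X]`
  let ψ : K[X] →+* V := ((aeval x : K[X] →ₐ[K] F) : K[X] →+* F).codRestrict V hmem
  have hψ : ∀ r : K[X], ((ψ r : V) : F) = aeval x r := fun r => rfl
  let p : Ideal K[X] := (IsLocalRing.maximalIdeal V).comap ψ
  have hp : ∀ r : K[X], r ∈ p ↔ aeval x r ∈ V.nonunits := by
    intro r
    rw [Ideal.mem_comap, ← ValuationSubring.coe_mem_nonunits_iff, hψ]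
  obtain ⟨g, hg⟩ := (IsPrincipalIdealRing.principal p).principal
  have hpg : ∀ r : K[X], r ∈ p ↔ g ∣ r := by
    intro r
    rw [hg, Ideal.submodule_span_eq, Ideal.mem_span_singleton]
  have hgu : ¬ IsUnit g := by
    intro hu
    have h1 : (1 : K[X]) ∈ p := (hpg 1).2 hu.dvd
    rw [hp, map_one] at h1
    exact ((ValuationSubring.mem_nonunits_iff _).1 h1).ne (map_one _)
  have hgp : aeval x g ∈ V.nonunits := (hp g).1 ((hpg g).2 dvd_rfl)
  -- units
  have hunit : ∀ r : K[X], ¬ g ∣ r → (aeval x r)⁻¹ ∈ V := by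
    intro r hr
    exact vd_inv_mem V (hmem r) (fun h => hr ((hpg r).1 ((hp r).2 h)))
  -- the uniformiser is not zero
  have hπ0 : aeval x g ≠ 0 := by
    intro h0
    apply hO
    refine SetLike.ext fun y => ⟨fun _ => ValuationSubring.mem_top y, fun _ => ?_⟩
    rw [ValuationSubring.mem_comap]
    obtain ⟨a, b, hab⟩ := hgen (algebraMap E F y) y.2
    rw [hab]
    by_cases hb0 : aeval x b = 0
    · rw [hb0, div_zero]
      exact V.zero_mem
    have hb : b ≠ 0 := by
      rintro rfl
      exact hb0 (map_zero _)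
    obtain ⟨j, b', hb', rfl⟩ := WfDvdMonoid.max_power_factor' hb hgu
    have hj : j = 0 := by
      by_contra hj
      apply hb0
      rw [map_mul, map_pow, h0, zero_pow hj, zero_mul]
    subst hj
    rw [pow_zero, one_mul, div_eq_mul_inv]
    exact V.mul_mem _ _ (hmem a) (hunit b' hb')
  -- the factorisation
  set O : ValuationSubring E := V.comap (algebraMap E F) with hOdef
  let ι : O →+* F := (algebraMap E F).comp O.subtype
  have hι : Function.Injective ι :=
    (algebraMap E F).injective.comp Subtype.val_injective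
  have hgO : (⟨aeval x g, hmemE g⟩ : E) ∈ O := by
    rw [hOdef, ValuationSubring.mem_comap]
    exact hmem g
  refine vd_pir_of_factorization (⟨⟨aeval x g, hmemE g⟩, hgO⟩ : O) ?_
  intro y hy0
  have hyF0 : ι y ≠ 0 := fun h => hy0 (hι (by rw [h, map_zero]))
  have hyV : ι y ∈ V := y.2
  obtain ⟨a, b, hab⟩ := hgen (ι y) (y : E).2
  have ha0 : aeval x a ≠ 0 := by
    intro h
    rw [h, zero_div] at hab
    exact hyF0 hab
  have hb0 : aeval x b ≠ 0 := by
    intro h
    rw [h, div_zero] at hab
    exact hyF0 hab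
  have ha : a ≠ 0 := by
    rintro rfl
    exact ha0 (map_zero _)
  have hb : b ≠ 0 := by
    rintro rfl
    exact hb0 (map_zero _)
  obtain ⟨i, a', ha', rfl⟩ := WfDvdMonoid.max_power_factor' ha hgu
  obtain ⟨j, b', hb', rfl⟩ := WfDvdMonoid.max_power_factor' hb hgu
  have ha'0 : aeval x a' ≠ 0 := by
    intro h
    apply ha0
    rw [map_mul, h, mul_zero]
  have hb'0 : aeval x b' ≠ 0 := by
    intro h
    apply hb0
    rw [map_mul, h, mul_zero]
  -- `w = a'(x) / b'(x)` is a unit of `V`
  set w : F := aeval x a' / aeval x b' with hw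
  have hw0 : w ≠ 0 := div_ne_zero ha'0 hb'0
  have hwV : w ∈ V := by
    rw [hw, div_eq_mul_inv]
    exact V.mul_mem _ _ (hmem a') (hunit b' hb')
  have hwV' : w⁻¹ ∈ V := by
    rw [hw, inv_div, div_eq_mul_inv]
    exact V.mul_mem _ _ (hmem b') (hunit a' ha')
  have hwE : w ∈ E := by
    rw [hw]
    exact E.div_mem (hmemE a') (hmemE b')
  have hvw : V.valuation w = 1 := by
    apply le_antisymm ((ValuationSubring.valuation_le_one_iff V w).2 hwV)
    have h1 := (ValuationSubring.valuation_le_one_iff V w⁻¹).2 hwV'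
    rw [map_inv₀] at h1
    exact (inv_le_one₀ (zero_lt_iff.2 ((_root_.map_ne_zero _).2 hw0))).1 h1
  have hy : ι y * (aeval x g) ^ j = w * (aeval x g) ^ i := by
    rw [hab, map_mul, map_mul, map_pow, map_pow, hw]
    field_simp
  -- `j ≤ i`
  have hvg : V.valuation (aeval x g) < 1 := (ValuationSubring.mem_nonunits_iff _).1 hgp
  have hvg0 : 0 < V.valuation (aeval x g) := zero_lt_iff.2 ((_root_.map_ne_zero _).2 hπ0)
  have hji : j ≤ i := by
    have h1 := congrArg V.valuation hy
    rw [map_mul, map_mul, map_pow, map_pow, hvw, one_mul] at h1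
    have h2 : V.valuation (aeval x g) ^ i ≤ V.valuation (aeval x g) ^ j := by
      rw [← h1]
      exact mul_le_of_le_one_left zero_le ((ValuationSubring.valuation_le_one_iff V _).2 hyV)
    exact (pow_le_pow_iff_right_of_lt_one₀ hvg0 hvg).1 h2
  have hy' : ι y = w * (aeval x g) ^ (i - j) := by
    have h3 : (aeval x g) ^ j ≠ 0 := pow_ne_zero _ hπ0
    apply mul_right_cancel₀ h3
    rw [hy, mul_assoc, ← pow_add, Nat.sub_add_cancel hji]
  -- the unit of `O`
  have hwO : (⟨w, hwE⟩ : E) ∈ O := by
    rw [hOdef, ValuationSubring.mem_comap]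
    exact hwV
  have hwO' : (⟨w⁻¹, E.inv_mem hwE⟩ : E) ∈ O := by
    rw [hOdef, ValuationSubring.mem_comap]
    exact hwV'
  let u : Oˣ :=
    { val := ⟨⟨w, hwE⟩, hwO⟩
      inv := ⟨⟨w⁻¹, E.inv_mem hwE⟩, hwO'⟩
      val_inv := by
        apply hι
        rw [map_mul, map_one]
        exact mul_inv_cancel₀ hw0
      inv_val := by
        apply hι
        rw [map_mul, map_one]
        exact inv_mul_cancel₀ hw0 }
  refine ⟨i - j, u, ?_⟩
  apply hι
  rw [map_mul, map_pow]
  exact hy'

end Simple

section Main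

variable {K F : Type} [Field K] [Field F] [Algebra K F]

/-- **VAL-DISC** : every valuation subring `V ≠ ⊤` of the function field `F`, containing the
constants, is a principal ideal ring. -/
theorem valDisc [IsAlgClosed K] (h : Fermat.Agent.H58.RRHyp K F) (V : ValuationSubring F)
    (hK : ∀ c : K, algebraMap K F c ∈ V) (hV : V ≠ ⊤) : IsPrincipalIdealRing V := by
  classical
  obtain ⟨x, hfin, hsep⟩ := Fermat.Agent.H16.ORD.exists_sep_of_rrHyp h
  haveI := hfin
  haveI := hsep
  -- the induced valuation ring is not trivial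
  have hO : V.comap (algebraMap K⟮x⟯ F) ≠ ⊤ := by
    intro htop
    apply hV
    refine SetLike.ext fun y => ⟨fun _ => ValuationSubring.mem_top y, fun _ => ?_⟩
    have hE : ∀ e : K⟮x⟯, algebraMap K⟮x⟯ F e ∈ V := by
      intro e
      rw [← ValuationSubring.mem_comap, htop]
      exact ValuationSubring.mem_top e
    obtain ⟨q, hq, hqy⟩ := (Algebra.IsIntegral.isIntegral (R := K⟮x⟯) y)
    let φ : K⟮x⟯ →+* V := (algebraMap K⟮x⟯ F).codRestrict V hE
    have hint : IsIntegral V y := by
      refine ⟨q.map φ, hq.map φ, ?_⟩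
      rw [Polynomial.eval₂_map]
      exact hqy
    obtain ⟨z, hz⟩ := (IsIntegrallyClosed.isIntegral_iff (R := V) (K := F)).1 hint
    rw [← hz]
    exact z.2
  have hpir : IsPrincipalIdealRing (V.comap (algebraMap K⟮x⟯ F)) := by
    rcases V.mem_or_inv_mem x with hx | hx
    · exact vd_simple_pir V hK hx K⟮x⟯ (mem_adjoin_simple_self K x)
        (fun y hy => (mem_adjoin_simple_iff K y).1 hy) hO
    · refine vd_simple_pir V hK hx K⟮x⟯ (K⟮x⟯.inv_mem (mem_adjoin_simple_self K x)) ?_ hO
      intro y hy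
      have hle : K⟮x⟯ ≤ K⟮x⁻¹⟯ := by
        rw [adjoin_simple_le_iff]
        have := K⟮x⁻¹⟯.inv_mem (mem_adjoin_simple_self K x⁻¹)
        rwa [inv_inv] at this
      exact (mem_adjoin_simple_iff K y).1 (hle hy)
  -- a non-zero non-unit
  obtain ⟨π, hπ0, hπ⟩ : ∃ π : K⟮x⟯, π ≠ 0 ∧ π ∈ (V.comap (algebraMap K⟮x⟯ F)).nonunits := by
    have : ∃ e : K⟮x⟯, e ∉ V.comap (algebraMap K⟮x⟯ F) := by
      by_contra hcon
      exact hO (SetLike.ext fun y => ⟨fun _ => ValuationSubring.mem_top y,
        fun _ => by_contra fun hy => hcon ⟨y, hy⟩⟩)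
    obtain ⟨e, he⟩ := this
    have he0 : e ≠ 0 := by
      rintro rfl
      exact he (ValuationSubring.zero_mem _)
    refine ⟨e⁻¹, inv_ne_zero he0, ?_⟩
    rw [ValuationSubring.mem_nonunits_iff, map_inv₀]
    rw [← ValuationSubring.valuation_le_one_iff, not_le] at he
    exact inv_lt_one_of_one_lt₀ he
  haveI := hpir
  exact Fermat.Agent.H83.SS2.isPrincipalIdealRing_of_above hπ0 hπ rfl

/-- the place of `F / K` with valuation ring `V` -/
def vdPlace [IsAlgClosed K] (h : Fermat.Agent.H58.RRHyp K F) (V : ValuationSubring F)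
    (hK : ∀ c : K, algebraMap K F c ∈ V) (hV : V ≠ ⊤) : Place K F where
  toValuationSubring := V
  algebraMap_mem' := hK
  ne_top' := hV
  isPrincipalIdealRing' := valDisc h V hK hV

@[simp]
theorem vdPlace_toValuationSubring [IsAlgClosed K] (h : Fermat.Agent.H58.RRHyp K F)
    (V : ValuationSubring F) (hK : ∀ c : K, algebraMap K F c ∈ V) (hV : V ≠ ⊤) :
    (vdPlace h V hK hV).toValuationSubring = V := rfl

end Main

end Fermat.Agent.H82.ORD
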